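/-
P4-S35, node (N3), concrete half (helper4): **faithfulness of the Hecke action on the "new"
sublattice, for the eigencharacter of a normalized eigenform whose period class is new.**

Setting: `Λ = parHomAdd N ℤ` (parabolic homomorphisms `Γ₀(N) → ℤ`) with the Hecke operators
`heckeLattice N ℓ` (`ℓ ∤ N`), and a family of NATURAL operations
`c j A : (Additive Γ₀(N) →+ A) →+ (Y j →+ A)` (natural in the coefficient group `A`; later: the two
corestrictions to the lower level).  If the period class `pml N g` of a normalized eigenform `g` is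
killed by all `c j ℂ`, then every integral polynomial `P` in the `T_ℓ` which kills
`Λ^new = ⋂ ker (c j ℤ)` satisfies `P(a_ℓ(g)) = 0`.

Proof: decompose `pml N g = ∑ z_j • (π_j ∘ ψ')` along a `ℤ`-basis of its (finitely generated, torsion
free) range; by naturality each integral component `π_j ∘ ψ'` is parabolic and killed by the `c j ℤ`;
then use `HeckeFaithful.intertwines_polyAct` and the injectivity of the period map.

* `exists_decomp`, `natOp_comp_eq_zero` : the abstract decomposition;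
* `evalS_apply_eigen`                   : `P(T) g = P(a(g)) • g`;
* `aeval_qCoeff_eq_zero`                : the faithfulness statement over `ℂ`;
* `exists_new_vector`                   : the `TateData`-shaped occurrence statement (input `hnew` of the
  S35 assembly), for an arbitrary comparison map `lam : parHomAdd N ℤ →+ T`.
-/
import Mathlib
import Fermat.Agent.N4F.Adic.HeckeFaithful
import Fermat.Agent.N4F.Adic.TateDataInst
import Fermat.Agent.N4F.Adic.S30Assembly
import Fermat.Agent.P4S35.NewVector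

set_option autoImplicit false
set_option linter.unusedSectionVars false
set_option linter.style.haveILetI false

open CongruenceSubgroup ModularCurve ModularFormClass
open scoped TensorProduct MatrixGroups

noncomputable section

namespace Fermat.Agent.P4S35.NewFaithful

open Fermat.Agent.N4F.Tors.HeckeHom Fermat.Agent.N4F.Tors.HomLattice
  Fermat.Agent.N4F.Tors.Outputs Fermat.Agent.N4F.Tors.Occurrence Fermat.Agent.M2.ES
  Fermat.Agent.N4F.Adic.HeckeFaithful

/-! ### Decomposition of a homomorphism along a basis of its range -/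

section Decomp

variable {X : Type} [AddGroup X] [AddGroup.FG X] {k : Type} [CommRing k] [IsAddTorsionFree k]

/-- A homomorphism `ψ : X →+ k` from a finitely generated group to a torsion-free ring is a finite
`k`-combination of the integral homomorphisms `π ∘ ψ'`, `ψ' : X →+ ψ.range`. -/
theorem exists_decomp (ψ : X →+ k) :
    ∃ (ι : Type) (_ : Fintype ι) (z : ι → k) (π : ι → (ψ.range →+ ℤ)),
      ∀ x, ψ x = ∑ j, z j * ((π j (ψ.rangeRestrict x) : ℤ) : k) := by
  classical
  have hfg : AddGroup.FG ψ.range := AddGroup.fg_range ψ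
  have hfin : Module.Finite ℤ ψ.range := Module.Finite.iff_addGroup_fg.2 hfg
  let e := Module.Free.chooseBasis ℤ ψ.range
  refine ⟨Module.Free.ChooseBasisIndex ℤ ψ.range, inferInstance,
    fun j => ((e j : ψ.range) : k), fun j => (e.coord j).toAddMonoidHom, fun x => ?_⟩
  have h2 := e.sum_repr (ψ.rangeRestrict x)
  have h3 := congrArg (fun z : ψ.range => (z : k)) h2
  simp only [AddSubgroup.val_finsetSum] at h3
  have h4 : ((ψ.rangeRestrict x : ψ.range) : k) = ψ x := rfl
  rw [← h4, ← h3]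
  refine Finset.sum_congr rfl fun j _ => ?_
  simp [mul_comm]

omit [AddGroup.FG X] [IsAddTorsionFree k] in
/-- A natural operation which kills `ψ` kills all its integral components. -/
theorem natOp_comp_eq_zero {Y : Type*} [AddGroup Y]
    (c : ∀ (A : Type) [AddCommGroup A], (X →+ A) →+ (Y →+ A))
    (hnat : ∀ (A B : Type) [AddCommGroup A] [AddCommGroup B] (φ : A →+ B) (ψ : X →+ A),
      c B (φ.comp ψ) = φ.comp (c A ψ))
    (ψ : X →+ k) (hψ : c k ψ = 0) (π : ψ.range →+ ℤ) :
    c ℤ (π.comp ψ.rangeRestrict) = 0 := by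
  have h1 : ψ.range.subtype.comp (c ψ.range ψ.rangeRestrict) = 0 := by
    rw [← hnat, AddMonoidHom.subtype_comp_rangeRestrict, hψ]
  have h2 : c ψ.range ψ.rangeRestrict = 0 := by
    refine AddMonoidHom.ext fun y => ?_
    have h3 := DFunLike.congr_fun h1 y
    exact Subtype.ext h3
  rw [hnat, h2]
  exact AddMonoidHom.comp_zero π

end Decomp

/-! ### `P(T)` on an eigenform -/

section Eigen

variable (N : ℕ) [NeZero N] (S : Set ℕ)

/-- `P(T) g = P(a(g)) • g` for a normalized eigenform `g`. -/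
theorem evalS_apply_eigen {g : CuspForm (Gamma0 N) 2} (hg : g.IsNormalizedEigenform)
    (Q : MvPolynomial (Idx N S) ℤ) :
    evalS N S Q g = MvPolynomial.aeval (fun i : Idx N S => qCoeff g (i.1 : ℕ)) Q • g := by
  induction Q using MvPolynomial.induction_on with
  | C a =>
    have h2 : evalS N S (MvPolynomial.C a) = a • (1 : Module.End ℂ (CuspForm (Gamma0 N) 2)) := by
      rw [← MvPolynomial.algebraMap_eq, AlgHom.commutes, Algebra.algebraMap_eq_smul_one]
    rw [h2, MvPolynomial.aeval_C, LinearMap.smul_apply, Module.End.one_apply, algebraMap_int_eq,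
      eq_intCast, Int.cast_smul_eq_zsmul]
  | add p q hp hq =>
    rw [map_add, map_add, LinearMap.add_apply, hp, hq, add_smul]
  | mul_X p i hp =>
    have h2 : evalS N S (p * MvPolynomial.X i) =
        evalS N S p * CuspForm.heckeTLin 2 i.1.2 i.2.1 := by
      rw [map_mul, evalS_X]
    rw [h2, Module.End.mul_apply,
      Fermat.Agent.N4F.Tors.PeriodHecke.heckeTLin_eq_smul hg i.1.2 i.2.1, map_smul, hp, map_mul,
      MvPolynomial.aeval_X, smul_smul, mul_comm]

end Eigen

/-! ### Faithfulness on the new sublattice -/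

section Faithful

variable (N : ℕ) [NeZero N] (S : Set ℕ)
  {J : Type*} {Y : J → Type} [∀ j, AddGroup (Y j)]
  (c : ∀ (j : J) (A : Type) [AddCommGroup A], (Additive ↥(Gamma0 N) →+ A) →+ (Y j →+ A))
  (hnat : ∀ (j : J) (A B : Type) [AddCommGroup A] [AddCommGroup B] (φ : A →+ B)
    (ψ : Additive ↥(Gamma0 N) →+ A), c j B (φ.comp ψ) = φ.comp (c j A ψ))

include hnat in
/-- **Faithfulness on the new part.** If the period class of the normalized eigenform `g` is killed
by the natural operations `c j`, every integral polynomial in the `T_ℓ` which kills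
`⋂ ker (c j ℤ) ⊆ parHomAdd N ℤ` vanishes at the eigenvalues of `g`. -/
theorem aeval_qCoeff_eq_zero {g : CuspForm (Gamma0 N) 2} (hg : g.IsNormalizedEigenform)
    (hg0 : ∀ j, c j ℂ (pml N g) = 0) (P : MvPolynomial (Idx N S) ℤ)
    (hP : ∀ x : parHomAdd N ℤ, (∀ j, c j ℤ x.1 = 0) →
      polyAct (R := ℤ) (tLat N S) (tLat_commute N S) P x = 0) :
    MvPolynomial.aeval (fun i : Idx N S => qCoeff g (i.1 : ℕ)) P = 0 := by
  classical
  obtain ⟨ι, _, z, π, hdec⟩ := exists_decomp (pml N g)
  have hpar : ∀ j, (π j).comp (pml N g).rangeRestrict ∈ parHomAdd N ℤ := by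
    intro j γ hγ
    have h1 : (pml N g).rangeRestrict (Additive.ofMul γ) = 0 :=
      Subtype.ext (pml_mem_parHomAdd N g γ hγ)
    rw [AddMonoidHom.comp_apply, h1, map_zero]
  have hx : ∀ j, polyAct (R := ℤ) (tLat N S) (tLat_commute N S) P
      ⟨(π j).comp (pml N g).rangeRestrict, hpar j⟩ = 0 := fun j =>
    hP _ fun j' => natOp_comp_eq_zero (c j') (hnat j') (pml N g) (hg0 j') (π j)
  set y : ℂ ⊗[ℤ] ↥(parHomAdd N ℤ) :=
    ∑ j, z j ⊗ₜ[ℤ] (⟨(π j).comp (pml N g).rangeRestrict, hpar j⟩ : parHomAdd N ℤ) with hy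
  have hJy : Jc N y = pml N g := by
    refine AddMonoidHom.ext fun γ => ?_
    rw [hy, map_sum, AddMonoidHom.finsetSum_apply, hdec γ]
    refine Finset.sum_congr rfl fun j _ => ?_
    rw [Jc_tmul, AddMonoidHom.smul_apply, castHom_apply, smul_eq_mul]
    rfl
  have h := intertwines_polyAct N S (tLat_commute N S) P g y hJy
  have h0 : (polyAct (R := ℤ) (tLat N S) (tLat_commute N S) P).baseChange ℂ y = 0 := by
    rw [hy, map_sum]
    refine Finset.sum_eq_zero fun j _ => ?_
    rw [LinearMap.baseChange_tmul, hx j, TensorProduct.tmul_zero]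
  rw [h0, map_zero, evalS_apply_eigen N S hg P] at h
  have h1 : MvPolynomial.aeval (fun i : Idx N S => qCoeff g (i.1 : ℕ)) P • g = 0 :=
    pml_injective N (h.symm.trans (map_zero _).symm)
  exact (smul_eq_zero.mp h1).resolve_right hg.ne_zero

end Faithful

/-! ### The occurrence statement on the new part -/

section Occ

open Fermat.Agent.N4F.Adic Fermat.Agent.N4F.Adic.TateDataInst

variable (p : ℕ) [Fact p.Prime] (N : ℕ) [NeZero N] (S : Finset ℕ)
  {T : Type*} [AddCommGroup T] [Module ℤ_[p] T] [Module.Free ℤ_[p] T] [Module.Finite ℤ_[p] T]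
  (hecke : ℕ → Module.End ℤ_[p] T) (lam : parHomAdd N ℤ →+ T)
  (hlam : ∀ (ℓ : ℕ) (x : parHomAdd N ℤ), lam (tGood N ℓ x) = hecke ℓ (lam x))
  (hmod : ∀ x : parHomAdd N ℤ, (∃ w : T, lam x = (p : ℤ_[p]) • w) →
    ∃ y : parHomAdd N ℤ, x = (p : ℤ) • y)
  {𝒪 : Type*} [CommRing 𝒪] [IsDomain 𝒪] [CharZero 𝒪] [Algebra ℤ_[p] 𝒪]
  {J : Type*} {Y : J → Type} [∀ j, AddGroup (Y j)]
  (c : ∀ (j : J) (A : Type) [AddCommGroup A], (Additive ↥(Gamma0 N) →+ A) →+ (Y j →+ A))
  (hnat : ∀ (j : J) (A B : Type) [AddCommGroup A] [AddCommGroup B] (φ : A →+ B)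
    (ψ : Additive ↥(Gamma0 N) →+ A), c j B (φ.comp ψ) = φ.comp (c j A ψ))
  (hstab : ∀ (ℓ : Nat.Primes) (hℓN : ¬ (ℓ : ℕ) ∣ N) (x : parHomAdd N ℤ),
    (∀ j, c j ℤ x.1 = 0) → ∀ j, c j ℤ (heckeLattice N ℓ hℓN x).1 = 0)

/-- The total operation `Λ → ∏ j, Hom(Y j, ℤ)`. -/
def cTot : parHomAdd N ℤ →+ (∀ j, Y j →+ ℤ) where
  toFun x j := c j ℤ x.1
  map_zero' := by
    funext j
    exact map_zero (c j ℤ)
  map_add' x x' := by
    funext j
    exact map_add (c j ℤ) x.1 x'.1

theorem cTot_eq_zero_iff (x : parHomAdd N ℤ) : cTot N c x = 0 ↔ ∀ j, c j ℤ x.1 = 0 :=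
  funext_iff

include hlam hmod hnat hstab in
/-- **(N3), concrete form = the input `hnew` of the S35 assembly.** For a comparison map
`lam : parHomAdd N ℤ →+ T` (equivariant, injective mod `p`) and natural operations `c j` with
Hecke-stable kernels killing the period class of the normalized eigenform `g`: for every submodule
`K' ≤ T` containing `lam (⋂ ker c j ℤ)`, the eigencharacter of `g` occurs in the image of
`𝒪 ⊗ K' → 𝒪 ⊗ T`. -/
theorem exists_new_vector {g : CuspForm (Gamma0 N) 2} (hg : g.IsNormalizedEigenform)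
    (hg0 : ∀ j, c j ℂ (pml N g) = 0)
    (chig : CuspForm.heckeAlgebra N 2 (↑S : Set ℕ) →+* ℂ)
    (hchig : ∀ (ℓ : ℕ) (hℓ : ℓ.Prime) (hℓN : ¬ ℓ ∣ N) (hℓS : ℓ ∉ (↑S : Set ℕ)),
      chig (CuspForm.heckeAlgebra.T hℓ hℓN hℓS) = qCoeff g ℓ)
    (iota : chig.range →+* 𝒪)
    (K' : Submodule ℤ_[p] T)
    (hK' : ∀ x : parHomAdd N ℤ, (∀ j, c j ℤ x.1 = 0) → lam x ∈ K') :
    ∃ v ∈ LinearMap.range (K'.subtype.baseChange 𝒪), v ≠ 0 ∧
      ∀ i : HeckeIdx N (↑S : Set ℕ), (hecke i.1).baseChange 𝒪 v =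
        (iota.comp chig.rangeRestrict) (CuspForm.heckeAlgebra.T i.2.1 i.2.2.1 i.2.2.2) • v := by
  classical
  have hp : ((p : ℕ) : ℤ) ≠ 0 := by exact_mod_cast (Fact.out : p.Prime).ne_zero
  refine NewVector.exists_new_eigenvector_range p
    (fun i : HeckeIdx N (↑S : Set ℕ) => tGood N i.1) (fun i j => tGood_commute N i.1 j.1)
    (fun i => hecke i.1) lam (fun i x => hlam i.1 x) hmod
    (fun i => (iota.comp chig.rangeRestrict) (CuspForm.heckeAlgebra.T i.2.1 i.2.2.1 i.2.2.2))
    (cTot N c) ?_ ?_ ?_ K' (fun x hx => hK' x ((cTot_eq_zero_iff N c x).mp hx))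
  · -- no `p`-torsion in the target
    intro w hw
    funext j
    refine AddMonoidHom.ext fun y => ?_
    have h1 := DFunLike.congr_fun (congrFun hw j) y
    have h2 : (p : ℤ) * w j y = 0 := by simpa using h1
    exact (mul_eq_zero.mp h2).resolve_left hp
  · -- stability of the kernel
    intro i x hx
    rw [cTot_eq_zero_iff] at hx ⊢
    rw [tGood_of_good N i.2.1 i.2.2.1]
    exact hstab ⟨i.1, i.2.1⟩ i.2.2.1 x hx
  · -- faithfulness
    intro P hP
    have hren := polyAct_rename (toPIdx N (↑S : Set ℕ))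
      (fun i : PIdx N (↑S : Set ℕ) => heckeLattice N i.1 i.2.1)
      (tLat_commute N (↑S : Set ℕ))
      (fun i : HeckeIdx N (↑S : Set ℕ) => tGood N i.1) (fun i j => tGood_commute N i.1 j.1)
      (fun i => (tGood_of_good N i.2.1 i.2.2.1).symm) P
    have h1 := aeval_qCoeff_eq_zero N (↑S : Set ℕ) c hnat hg hg0
      (MvPolynomial.rename (toPIdx N (↑S : Set ℕ)) P) (by
        intro x hx
        have h2 := hP x ((cTot_eq_zero_iff N c x).mpr hx)
        rw [← hren] at h2
        exact h2)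
    rw [MvPolynomial.aeval_rename] at h1
    have h3 := S30Assembly.aeval_ringHom chig (fun i : HeckeIdx N (↑S : Set ℕ) =>
      (CuspForm.heckeAlgebra.T i.2.1 i.2.2.1 i.2.2.2 : CuspForm.heckeAlgebra N 2 (↑S : Set ℕ))) P
    have h4 : (fun i : HeckeIdx N (↑S : Set ℕ) =>
        chig (CuspForm.heckeAlgebra.T i.2.1 i.2.2.1 i.2.2.2)) =
        (fun i : Idx N (↑S : Set ℕ) => qCoeff g (i.1 : ℕ)) ∘ toPIdx N (↑S : Set ℕ) := by
      funext i
      exact hchig i.1 i.2.1 i.2.2.1 i.2.2.2
    rw [h4, h1] at h3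
    have h5 : chig.rangeRestrict (MvPolynomial.aeval (fun i : HeckeIdx N (↑S : Set ℕ) =>
        (CuspForm.heckeAlgebra.T i.2.1 i.2.2.1 i.2.2.2 :
          CuspForm.heckeAlgebra N 2 (↑S : Set ℕ))) P) = 0 := Subtype.ext h3
    have h6 := S30Assembly.aeval_ringHom (iota.comp chig.rangeRestrict)
      (fun i : HeckeIdx N (↑S : Set ℕ) =>
        (CuspForm.heckeAlgebra.T i.2.1 i.2.2.1 i.2.2.2 : CuspForm.heckeAlgebra N 2 (↑S : Set ℕ))) P
    rw [← h6, RingHom.comp_apply, h5, map_zero]

end Occ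

end Fermat.Agent.P4S35.NewFaithful
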