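/-
P4-S35 / P3-LR, form side: **a nonzero simultaneous `T_ℓ`-eigenvector (`ℓ ∈ I`) in the parabolic
cohomology `parabolicHoms ℂ Γ₀(N) ℂ` produces a normalized eigenform of level `N` with the same
eigenvalues** (S21 + Hecke-equivariance of the period map + common eigenvectors + S49's
normalisation).  Consequence: the good eigensystem of a newform of level `M` does not occur in the
parabolic cohomology of any proper divisor level `N ∣ M`.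
-/
import Mathlib
import Fermat.Agent.S21
import Fermat.Agent.N4F.Tors.PeriodHecke
import Fermat.Agent.S49.LinAlg
import Fermat.Agent.S49.EigenToNormalized
import Fermat.Agent.M2.ES.S21Cond
import Fermat.Prelude.Def_CuspForm_Newforms
import Fermat.Prelude.Def_CuspForm_HeckeAlgebra

set_option autoImplicit false

open CongruenceSubgroup ModularCurve ModularCurve.Period CuspForm ModularFormClass

noncomputable section

namespace Fermat.Agent.P4S35.OccursOfEigenvector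

open Fermat.Agent.N4F.Tors.HeckeHom Fermat.Agent.N4F.Tors.PeriodHecke Fermat.Agent.S49

variable (N : ℕ) [NeZero N]

/-- the simultaneous eigenspace of the `T_ℓ`, `ℓ ∈ I`, with eigenvalues `a ℓ` -/
def eigSub (I : Set ℕ) (a : ℕ → ℂ) : Submodule ℂ (CuspForm (Gamma0 N) 2) where
  carrier := {f | ∀ (ℓ : ℕ) (hℓ : ℓ.Prime) (hℓN : ¬ ℓ ∣ N), ℓ ∈ I → heckeTLin 2 hℓ hℓN f = a ℓ • f}
  zero_mem' := by intro ℓ hℓ hℓN _; simp
  add_mem' := by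
    intro f g hf hg ℓ hℓ hℓN hI
    rw [map_add, hf ℓ hℓ hℓN hI, hg ℓ hℓ hℓN hI, smul_add]
  smul_mem' := by
    intro c f hf ℓ hℓ hℓN hI
    rw [map_smul, hf ℓ hℓ hℓN hI, smul_comm]

variable {N}

omit [NeZero N] in
theorem mem_eigSub {I : Set ℕ} {a : ℕ → ℂ} {f : CuspForm (Gamma0 N) 2} :
    f ∈ eigSub N I a ↔
      ∀ (ℓ : ℕ) (hℓ : ℓ.Prime) (hℓN : ¬ ℓ ∣ N), ℓ ∈ I → heckeTLin 2 hℓ hℓN f = a ℓ • f := Iff.rfl

/-- the eigenspace is stable under all Hecke generators of level `N` -/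
theorem mapsTo_eigSub (I : Set ℕ) (a : ℕ → ℂ) {T : Module.End ℂ (CuspForm (Gamma0 N) 2)}
    (hT : T ∈ heckeGenerators N 2 (∅ : Set ℕ)) :
    Set.MapsTo T (eigSub N I a) (eigSub N I a) := by
  intro f hf ℓ hℓ hℓN hI
  have hc : Commute (heckeTLin 2 hℓ hℓN) T :=
    commute_of_mem_heckeGenerators (S := (∅ : Set ℕ))
      (heckeTLin_mem_heckeGenerators hℓ hℓN (Set.notMem_empty ℓ)) hT
  have h1 : heckeTLin 2 hℓ hℓN (T f) = T (heckeTLin 2 hℓ hℓN f) :=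
    LinearMap.congr_fun hc.eq f
  rw [h1, hf ℓ hℓ hℓN hI, map_smul]

/-- **A nonzero vector of the eigenspace gives a normalized eigenform with the same eigenvalues.** -/
theorem exists_isNormalizedEigenform_of_mem_eigSub (I : Set ℕ) (a : ℕ → ℂ)
    {f₀ : CuspForm (Gamma0 N) 2} (hf₀ : f₀ ∈ eigSub N I a) (hf₀0 : f₀ ≠ 0) :
    ∃ f : CuspForm (Gamma0 N) 2, f.IsNormalizedEigenform ∧
      ∀ ℓ : ℕ, ℓ.Prime → ¬ ℓ ∣ N → ℓ ∈ I → qCoeff f ℓ = a ℓ := by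
  classical
  haveI : Module.Finite ℂ (CuspForm (Gamma0 N) 2) := Fermat.Agent.M2.ES.S21Cond.finite_cuspForm_two N
  haveI : Nontrivial (eigSub N I a) := ⟨⟨⟨f₀, hf₀⟩, 0, fun h => hf₀0 (congrArg Subtype.val h)⟩⟩
  -- the restricted operators
  let S : Set (Module.End ℂ (eigSub N I a)) :=
    {T' | ∃ (T : Module.End ℂ (CuspForm (Gamma0 N) 2)) (hT : T ∈ heckeGenerators N 2 (∅ : Set ℕ)),
      T' = T.restrict (mapsTo_eigSub I a hT)}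
  have hS : ∀ x ∈ S, ∀ y ∈ S, Commute x y := by
    rintro _ ⟨T, hT, rfl⟩ _ ⟨T', hT', rfl⟩
    refine LinearMap.ext fun v => Subtype.ext ?_
    exact LinearMap.congr_fun (commute_of_mem_heckeGenerators hT hT').eq (v : CuspForm (Gamma0 N) 2)
  obtain ⟨v, hv0, hv⟩ := exists_common_eigenvector S hS
  have hv0' : (v : CuspForm (Gamma0 N) 2) ≠ 0 := fun h => hv0 (Subtype.ext h)
  have hTe : ∀ (ℓ : ℕ) (hℓ : ℓ.Prime) (hℓN : ¬ ℓ ∣ N),
      ∃ c : ℂ, heckeTLin 2 hℓ hℓN (v : CuspForm (Gamma0 N) 2) = c • (v : CuspForm (Gamma0 N) 2) := by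
    intro ℓ hℓ hℓN
    obtain ⟨c, hc⟩ := hv _ ⟨heckeTLin 2 hℓ hℓN,
      heckeTLin_mem_heckeGenerators hℓ hℓN (Set.notMem_empty ℓ), rfl⟩
    exact ⟨c, congrArg Subtype.val hc⟩
  have hUe : ∀ (q : ℕ) (_ : q.Prime) (hqN : q ∣ N),
      ∃ c : ℂ, heckeULin 2 hqN (v : CuspForm (Gamma0 N) 2) = c • (v : CuspForm (Gamma0 N) 2) := by
    intro q hq hqN
    obtain ⟨c, hc⟩ := hv _ ⟨heckeULin 2 hqN,
      heckeULin_mem_heckeGenerators hq hqN (Set.notMem_empty q), rfl⟩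
    exact ⟨c, congrArg Subtype.val hc⟩
  let lam : ℕ → ℂ := fun n =>
    if h : n.Prime ∧ ¬ n ∣ N then (hTe n h.1 h.2).choose
    else if h' : n.Prime ∧ n ∣ N then (hUe n h'.1 h'.2).choose else 0
  have hlamT : ∀ (ℓ : ℕ) (hℓ : ℓ.Prime) (hℓN : ¬ ℓ ∣ N),
      heckeTLin 2 hℓ hℓN (v : CuspForm (Gamma0 N) 2) = lam ℓ • (v : CuspForm (Gamma0 N) 2) := by
    intro ℓ hℓ hℓN
    have h : ℓ.Prime ∧ ¬ ℓ ∣ N := ⟨hℓ, hℓN⟩
    simp only [lam, dif_pos h]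
    exact (hTe ℓ hℓ hℓN).choose_spec
  have hlamU : ∀ (q : ℕ) (hq : q.Prime) (hqN : q ∣ N),
      heckeULin 2 hqN (v : CuspForm (Gamma0 N) 2) = lam q • (v : CuspForm (Gamma0 N) 2) := by
    intro q hq hqN
    have h : ¬ (q.Prime ∧ ¬ q ∣ N) := fun h => h.2 hqN
    have h' : q.Prime ∧ q ∣ N := ⟨hq, hqN⟩
    simp only [lam, dif_neg h, dif_pos h']
    exact (hUe q hq hqN).choose_spec
  obtain ⟨f, hf, hfq⟩ := exists_isNormalizedEigenform_of_eigenvector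
    (v : CuspForm (Gamma0 N) 2) hv0' lam hlamT hlamU
  refine ⟨f, hf, fun ℓ hℓ hℓN hI => ?_⟩
  rw [hfq ℓ hℓ]
  have h1 := hlamT ℓ hℓ hℓN
  rw [v.2 ℓ hℓ hℓN hI] at h1
  exact (smul_left_injective ℂ hv0' h1).symm


/-- **From parabolic cohomology to eigenforms.**  A nonzero `w ∈ parabolicHoms ℂ Γ₀(N) ℂ` with
`T_ℓ w = a ℓ • w` for all primes `ℓ ∈ I`, `ℓ ∤ N`, yields a normalized eigenform of level `N` with
`a_ℓ = a ℓ` for these `ℓ`. -/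
theorem exists_isNormalizedEigenform_of_eigenvector_hom (I : Set ℕ) (a : ℕ → ℂ)
    (w : Additive ↥(Gamma0 N) →+ ℂ) (hw : w ∈ parabolicHoms ℂ (Gamma0 N) ℂ) (hw0 : w ≠ 0)
    (heig : ∀ (ℓ : ℕ) [Fact ℓ.Prime] (hℓN : ¬ ℓ ∣ N), ℓ ∈ I → heckeAdd N ℓ hℓN w = a ℓ • w) :
    ∃ f : CuspForm (Gamma0 N) 2, f.IsNormalizedEigenform ∧
      ∀ ℓ : ℕ, ℓ.Prime → ¬ ℓ ∣ N → ℓ ∈ I → qCoeff f ℓ = a ℓ := by
  obtain ⟨hinj, hrange⟩ := Fermat.Agent.S21.result N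
  rw [← hrange] at hw
  obtain ⟨⟨f₁, f₂⟩, rfl⟩ := hw
  have hmem : f₁ ∈ eigSub N I a ∧ f₂ ∈ eigSub N I a := by
    have key : ∀ (ℓ : ℕ) (hℓ : ℓ.Prime) (hℓN : ¬ ℓ ∣ N), ℓ ∈ I →
        (heckeTLin 2 hℓ hℓN f₁, heckeTLin 2 hℓ hℓN f₂) = (a ℓ • f₁, a ℓ • f₂) := by
      intro ℓ hℓ hℓN hI
      haveI : Fact ℓ.Prime := ⟨hℓ⟩
      apply hinj
      rw [← heckeAdd_periodHomPair N hℓ hℓN, heig ℓ hℓN hI, ← Prod.smul_mk, map_smul]
    exact ⟨fun ℓ hℓ hℓN hI => (Prod.ext_iff.1 (key ℓ hℓ hℓN hI)).1,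
      fun ℓ hℓ hℓN hI => (Prod.ext_iff.1 (key ℓ hℓ hℓN hI)).2⟩
  by_cases h1 : f₁ = 0
  · have h2 : f₂ ≠ 0 := by
      rintro rfl
      apply hw0
      rw [h1]
      exact map_zero _
    exact exists_isNormalizedEigenform_of_mem_eigSub I a hmem.2 h2
  · exact exists_isNormalizedEigenform_of_mem_eigSub I a hmem.1 h1

/-- the same for `parHomAdd N ℂ` (homomorphisms killing parabolic AND elliptic elements) -/
theorem exists_isNormalizedEigenform_of_eigenvector_parHomAdd (I : Set ℕ) (a : ℕ → ℂ)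
    (w : Additive ↥(Gamma0 N) →+ ℂ) (hw : w ∈ parHomAdd N ℂ) (hw0 : w ≠ 0)
    (heig : ∀ (ℓ : ℕ) [Fact ℓ.Prime] (hℓN : ¬ ℓ ∣ N), ℓ ∈ I → heckeAdd N ℓ hℓN w = a ℓ • w) :
    ∃ f : CuspForm (Gamma0 N) 2, f.IsNormalizedEigenform ∧
      ∀ ℓ : ℕ, ℓ.Prime → ¬ ℓ ∣ N → ℓ ∈ I → qCoeff f ℓ = a ℓ :=
  exists_isNormalizedEigenform_of_eigenvector_hom I a w
    (fun γ hγ => hw γ (Or.inl hγ)) hw0 heig

/-- **The good eigensystem of `g` (level `M`) occurs at level `N ∣ M` as soon as it occurs in the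
parabolic cohomology of `Γ₀(N)`.** -/
theorem goodEigensystemOccursAt_of_eigenvector {M : ℕ} (g : CuspForm (Gamma0 M) 2) (hNM : N ∣ M)
    (w : Additive ↥(Gamma0 N) →+ ℂ) (hw : w ∈ parabolicHoms ℂ (Gamma0 N) ℂ) (hw0 : w ≠ 0)
    (heig : ∀ (ℓ : ℕ) [Fact ℓ.Prime] (hℓN : ¬ ℓ ∣ N), ¬ ℓ ∣ M →
      heckeAdd N ℓ hℓN w = qCoeff g ℓ • w) :
    g.GoodEigensystemOccursAt N := by
  obtain ⟨f, hf, hfq⟩ := exists_isNormalizedEigenform_of_eigenvector_hom {ℓ | ¬ ℓ ∣ M}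
    (fun ℓ => qCoeff g ℓ) w hw hw0 heig
  exact ⟨f, hf, fun ℓ hℓ hℓM => hfq ℓ hℓ (fun h => hℓM (h.trans hNM)) hℓM⟩

/-- **Newforms are invisible at proper divisor levels**: for a newform `g` of level `M` and a proper
divisor `N` of `M`, every `w` in the parabolic cohomology of `Γ₀(N)` on which the `T_ℓ`, `ℓ ∤ M`,
act through the eigenvalues of `g` vanishes. -/
theorem eq_zero_of_isNewform {M : ℕ} {g : CuspForm (Gamma0 M) 2} (hg : g.IsNewform) (hNM : N ∣ M)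
    (hne : N ≠ M) (w : Additive ↥(Gamma0 N) →+ ℂ) (hw : w ∈ parabolicHoms ℂ (Gamma0 N) ℂ)
    (heig : ∀ (ℓ : ℕ) [Fact ℓ.Prime] (hℓN : ¬ ℓ ∣ N), ¬ ℓ ∣ M →
      heckeAdd N ℓ hℓN w = qCoeff g ℓ • w) : w = 0 := by
  by_contra hw0
  exact hg.2 N hNM hne (goodEigensystemOccursAt_of_eigenvector g hNM w hw hw0 heig)

end Fermat.Agent.P4S35.OccursOfEigenvector
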