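/-
P4-S35, nodes (N2)+(N3), assembly (helper4): **the new vector of S35 from natural corestrictions.**

`M` the top level, `N ∣ M` a proper divisor, `c j A : Hom(Γ₀(M), A) → Hom(Γ₀(N), A)` a family of
NATURAL additive operations (the corestrictions `cores_α`, `cores_β`) such that, on the INTEGRAL
PARABOLIC lattice `parHomAdd M ℤ`, they take parabolic values and commute with the `T_ℓ`, `ℓ ∤ M`.

* `exists_pml_eq_sum`   : the period class is a finite `ℂ`-combination of integral parabolic classes;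
* `natOp_pml_eq_zero`   : **(N2)** the period class of a newform of level `M` is killed by `c ℂ`
  (only the two integral hypotheses are used; through `OccursOfEigenvector.eq_zero_of_isNewform`);
* `exists_new_vector_tateData` : **(N3)** for the explicit Tate data `KummerExplicit.tateData M p hES`
  and the push-forwards `π j : J₀(M) → J₀(N)` compatible with `c j` through the Kummer maps
  (`hπ` = (N4)): the eigencharacter of the newform occurs in the image of `𝒪 ⊗ K' → 𝒪 ⊗ T` for every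
  submodule `K'` containing `⋂ ker (Tate.map (π j))` — the hypothesis `hnew` of the S35 assembly.
-/
import Mathlib
import Fermat.Agent.P4S35.OccursOfEigenvector
import Fermat.Agent.P4S35.NewFaithful
import Fermat.Agent.P4.TatePush

set_option autoImplicit false
set_option linter.unusedSectionVars false
set_option linter.style.haveILetI false

open CongruenceSubgroup ModularCurve ModularFormClass
open scoped TensorProduct MatrixGroups

noncomputable section

namespace Fermat.Agent.P4S35.NewAssembly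

open Fermat.Agent.N4F.Tors.HeckeHom Fermat.Agent.N4F.Tors.HomLattice
  Fermat.Agent.N4F.Tors.Outputs Fermat.Agent.N4F.Tors.Occurrence Fermat.Agent.M2.ES
  Fermat.Agent.N4F.Adic.HeckeFaithful Fermat.Agent.P4S35.NewFaithful

/-! ### Natural operations and finite combinations -/

section NatOp

variable {X Y : Type} [AddGroup X] [AddGroup Y]
  (Θ : ∀ (A : Type) [AddCommGroup A], (X →+ A) →+ (Y →+ A))
  (hΘ : ∀ (A B : Type) [AddCommGroup A] [AddCommGroup B] (φ : A →+ B) (ψ : X →+ A),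
    Θ B (φ.comp ψ) = φ.comp (Θ A ψ))

include hΘ in
theorem natOp_sum_comp {ι : Type} [Fintype ι] (φ : ι → (ℤ →+ ℂ)) (x : ι → (X →+ ℤ)) :
    Θ ℂ (∑ j, (φ j).comp (x j)) = ∑ j, (φ j).comp (Θ ℤ (x j)) := by
  rw [map_sum]
  exact Finset.sum_congr rfl fun j _ => hΘ ℤ ℂ (φ j) (x j)

end NatOp

/-! ### The period class as a combination of integral parabolic classes -/

section Period

variable {M : ℕ} [NeZero M]

theorem exists_pml_eq_sum (g : CuspForm (Gamma0 M) 2) :
    ∃ (ι : Type) (_ : Fintype ι) (φ : ι → (ℤ →+ ℂ)) (x : ι → parHomAdd M ℤ),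
      pml M g = ∑ j, (φ j).comp (x j).1 := by
  classical
  obtain ⟨ι, _, z, π, hdec⟩ := exists_decomp (pml M g)
  have hpar : ∀ j, (π j).comp (pml M g).rangeRestrict ∈ parHomAdd M ℤ := by
    intro j γ hγ
    have h1 : (pml M g).rangeRestrict (Additive.ofMul γ) = 0 :=
      Subtype.ext (pml_mem_parHomAdd M g γ hγ)
    rw [AddMonoidHom.comp_apply, h1, map_zero]
  refine ⟨ι, inferInstance, fun j => (AddMonoidHom.mulLeft (z j)).comp (Int.castAddHom ℂ),
    fun j => ⟨(π j).comp (pml M g).rangeRestrict, hpar j⟩, ?_⟩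
  refine AddMonoidHom.ext fun γ => ?_
  rw [AddMonoidHom.finsetSum_apply, hdec γ]
  refine Finset.sum_congr rfl fun j _ => ?_
  simp

variable {N : ℕ} [NeZero N]
  (c : ∀ (A : Type) [AddCommGroup A],
    (Additive ↥(Gamma0 M) →+ A) →+ (Additive ↥(Gamma0 N) →+ A))
  (hnat : ∀ (A B : Type) [AddCommGroup A] [AddCommGroup B] (φ : A →+ B)
    (ψ : Additive ↥(Gamma0 M) →+ A), c B (φ.comp ψ) = φ.comp (c A ψ))
  (hpar : ∀ ψ : parHomAdd M ℤ, c ℤ ψ.1 ∈ parHomAdd N ℤ)
  (hcomm : ∀ (ℓ : ℕ) [Fact ℓ.Prime] (hℓM : ¬ ℓ ∣ M) (hℓN : ¬ ℓ ∣ N) (ψ : parHomAdd M ℤ),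
    c ℤ (heckeAdd M ℓ hℓM ψ.1) = heckeAdd N ℓ hℓN (c ℤ ψ.1))

include hnat hpar hcomm in
/-- **(N2)** The period class of a newform of level `M` is killed by every natural operation to a
proper divisor level which is parabolic and Hecke-equivariant on the integral parabolic lattice. -/
theorem natOp_pml_eq_zero {g : CuspForm (Gamma0 M) 2} (hg : g.IsNewform) (hNM : N ∣ M)
    (hne : N ≠ M) : c ℂ (pml M g) = 0 := by
  classical
  obtain ⟨ι, _, φ, x, hsum⟩ := exists_pml_eq_sum g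
  have hc : c ℂ (pml M g) = ∑ j, (φ j).comp (c ℤ (x j).1) := by
    rw [hsum]
    exact natOp_sum_comp c hnat φ fun j => (x j).1
  refine OccursOfEigenvector.eq_zero_of_isNewform hg hNM hne _ ?_ ?_
  · -- parabolic
    intro γ hγ
    rw [hc, AddMonoidHom.finsetSum_apply]
    refine Finset.sum_eq_zero fun j _ => ?_
    rw [AddMonoidHom.comp_apply, hpar (x j) γ (Or.inl hγ), map_zero]
  · -- eigenvector
    intro ℓ _ hℓN hℓM
    have hℓ : ℓ.Prime := Fact.out
    have h1 : heckeAdd N ℓ hℓN (c ℂ (pml M g)) = c ℂ (heckeAdd M ℓ hℓM (pml M g)) := by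
      have hΘ₁ := natOp_sum_comp (fun A _ => (heckeAdd N ℓ hℓN).comp (c A))
        (fun A B _ _ φ ψ => by
          rw [AddMonoidHom.comp_apply, AddMonoidHom.comp_apply, hnat, heckeAdd_comp]) φ
        fun j => (x j).1
      have hΘ₂ := natOp_sum_comp (fun A _ => (c A).comp (heckeAdd M ℓ hℓM))
        (fun A B _ _ φ ψ => by
          rw [AddMonoidHom.comp_apply, AddMonoidHom.comp_apply, heckeAdd_comp, hnat]) φ
        fun j => (x j).1
      rw [← hsum] at hΘ₁ hΘ₂
      rw [AddMonoidHom.comp_apply] at hΘ₁ hΘ₂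
      rw [hΘ₁, hΘ₂]
      refine Finset.sum_congr rfl fun j _ => ?_
      rw [AddMonoidHom.comp_apply, AddMonoidHom.comp_apply, hcomm ℓ hℓM hℓN (x j)]
    have h2 : heckeAdd M ℓ hℓM (pml M g) = qCoeff g ℓ • pml M g := by
      rw [← Fermat.Agent.N4F.Tors.PeriodHecke.pml_heckeTLin M hℓ hℓM g,
        Fermat.Agent.N4F.Tors.PeriodHecke.heckeTLin_eq_smul hg.1 hℓ hℓM, map_smul]
    have h3 : qCoeff g ℓ • pml M g = (AddMonoidHom.mulLeft (qCoeff g ℓ)).comp (pml M g) := by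
      refine AddMonoidHom.ext fun γ => ?_
      simp
    have h4 : qCoeff g ℓ • c ℂ (pml M g)
        = (AddMonoidHom.mulLeft (qCoeff g ℓ)).comp (c ℂ (pml M g)) := by
      refine AddMonoidHom.ext fun γ => ?_
      simp
    rw [h1, h2, h3, hnat, ← h4]

end Period

/-! ### The new vector for the explicit Tate data -/

section Assembly

open Fermat.Agent.N4F.Adic Fermat.Agent.N4F.Adic.TateDataInst Fermat.Agent.N4F.Adic.TateModule
  Fermat.Agent.N4F.Adic.TateJ Fermat.Agent.N4F.Res Fermat.Agent.P4.KummerExplicit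
  Fermat.Agent.P4.TatePush

variable {M N : ℕ} [NeZero M] [NeZero N] (p : ℕ) [Fact p.Prime] (S : Finset ℕ)
  (hES : ESOnTorsionAll M)
  {𝒪 : Type} [CommRing 𝒪] [IsDomain 𝒪] [CharZero 𝒪] [Algebra ℤ_[p] 𝒪]
  {J : Type*}
  (c : ∀ (_ : J) (A : Type) [AddCommGroup A],
    (Additive ↥(Gamma0 M) →+ A) →+ (Additive ↥(Gamma0 N) →+ A))
  (hnat : ∀ (j : J) (A B : Type) [AddCommGroup A] [AddCommGroup B] (φ : A →+ B)
    (ψ : Additive ↥(Gamma0 M) →+ A), c j B (φ.comp ψ) = φ.comp (c j A ψ))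
  (hpar : ∀ (j : J) (ψ : parHomAdd M ℤ), c j ℤ ψ.1 ∈ parHomAdd N ℤ)
  (hcomm : ∀ (j : J) (ℓ : ℕ) [Fact ℓ.Prime] (hℓM : ¬ ℓ ∣ M) (hℓN : ¬ ℓ ∣ N) (ψ : parHomAdd M ℤ),
    c j ℤ (heckeAdd M ℓ hℓM ψ.1) = heckeAdd N ℓ hℓN (c j ℤ ψ.1))
  (π : J → (JZero M →+ JZero N))
  (hπ : ∀ (j : J) (k : ℕ) (y : Jtors M (p ^ k)),
    kappa N (p ^ k) (mapTors (π j) (p ^ k) y) = c j (ZMod (p ^ k)) (kappa M (p ^ k) y))

include hnat hpar hcomm hπ in
/-- **(N3) for the explicit Tate data = hypothesis `hnew` of the S35 assembly.** -/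
theorem exists_new_vector_tateData {g : CuspForm (Gamma0 M) 2} (hg : g.IsNewform)
    (hNM : N ∣ M) (hne : N ≠ M)
    (chig : CuspForm.heckeAlgebra M 2 (↑S : Set ℕ) →+* ℂ)
    (hchig : ∀ (ℓ : ℕ) (hℓ : ℓ.Prime) (hℓM : ¬ ℓ ∣ M) (hℓS : ℓ ∉ (↑S : Set ℕ)),
      chig (CuspForm.heckeAlgebra.T hℓ hℓM hℓS) = qCoeff g ℓ)
    (iota : chig.range →+* 𝒪)
    (K' : Submodule ℤ_[p] (tateData M p hES).T)
    (hK' : ∀ z : TJ p M, (∀ j, Tate.map (π j) z = 0) → z ∈ K') :
    ∃ v ∈ LinearMap.range (K'.subtype.baseChange 𝒪), v ≠ 0 ∧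
      ∀ i, (S30Assembly.tauT (tateData M p hES) S i).baseChange 𝒪 v =
        S30Assembly.eigenvalue S 𝒪 (iota.comp chig.rangeRestrict) i • v := by
  have hstab : ∀ (ℓ : Nat.Primes) (hℓM : ¬ (ℓ : ℕ) ∣ M) (x : parHomAdd M ℤ),
      (∀ j, c j ℤ x.1 = 0) → ∀ j, c j ℤ (heckeLattice M ℓ hℓM x).1 = 0 := by
    intro ℓ hℓM x hx j
    haveI : Fact (ℓ : ℕ).Prime := ⟨ℓ.2⟩
    have h1 : (heckeLattice M ℓ hℓM x).1 = heckeAdd M (ℓ : ℕ) hℓM x.1 := rfl
    rw [h1, hcomm j (ℓ : ℕ) hℓM (fun h => hℓM (h.trans hNM)) x, hx j, map_zero]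
  exact exists_new_vector (T := (tateData M p hES).T) p M S (tateData M p hES).hecke
    (tateData M p hES).f (tateData M p hES).f_t (tateData M p hES).f_mod c hnat hstab hg.1
    (fun j => natOp_pml_eq_zero (c j) (hnat j) (hpar j) (hcomm j) hg hNM hne)
    chig hchig iota K'
    (fun x hx => lam_mem_of_forall p π c hnat hπ K' hK' x hx)

end Assembly

end Fermat.Agent.P4S35.NewAssembly
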