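/-
P4-S35, node P4-NEW (helper4): **the new vector inside `𝒪 ⊗ newT`, for the explicit Tate data at level
`N q`** — instantiation of `NewAssembly.exists_new_vector_tateData` with

* `α`-side: helper2's corestriction `Cores.coresAdd hqN` (natural, parabolic, Hecke-equivariant:
  `P4/Cores`) and helper7's `TatePushAlpha.kappa_mapTors_alphaPush` (Kummer compatibility);
* `β`-side: an ARBITRARY natural operation `cβ` with the same four properties, as hypotheses (to be
  discharged by (N1b)/(N4b): `coresEtaAdd` resp. `coresAdd ∘ (· ∘ alConj)`).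

`exists_new_vector_newT` is the second conjunct of `S35Assembly.NewVectorAtPoly` with
`K' := PushTate.newT p N q` and `D := KummerExplicit.tateData (N q) p hES`.
-/
import Mathlib
import Fermat.Agent.P4S35.NewAssembly
import Fermat.Agent.P4.TatePushAlpha

set_option autoImplicit false
set_option linter.unusedSectionVars false
set_option linter.style.haveILetI false

open CongruenceSubgroup ModularCurve ModularFormClass
open scoped TensorProduct MatrixGroups

noncomputable section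

namespace Fermat.Agent.P4S35.NewInstance

open Fermat.Agent.N4F.Tors.HeckeHom Fermat.Agent.N4F.Tors.Outputs Fermat.Agent.M2.ES
  Fermat.Agent.N4F.Adic Fermat.Agent.N4F.Adic.TateModule Fermat.Agent.N4F.Adic.TateJ
  Fermat.Agent.N4F.Res Fermat.Agent.P4.KummerExplicit Fermat.Agent.P4.TatePush
  Fermat.Agent.P4.Cores Fermat.Agent.P4.Push Fermat.Agent.P4.PushTate
  Fermat.Agent.P3G.AuxPrime Fermat.Agent.P4S35.NewAssembly

variable {N q : ℕ} [NeZero N] [hq : Fact q.Prime] (hqN : ¬ q ∣ N)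
  (p : ℕ) [hp : Fact p.Prime] (S : Finset ℕ) (hES : ESOnTorsionAll (N * q))
  {𝒪 : Type} [CommRing 𝒪] [IsDomain 𝒪] [CharZero 𝒪] [Algebra ℤ_[p] 𝒪]
  (cβ : ∀ (A : Type) [AddCommGroup A],
    (Additive ↥(Gamma0 (N * q)) →+ A) →+ (Additive ↥(Gamma0 N) →+ A))
  (hnatβ : ∀ (A B : Type) [AddCommGroup A] [AddCommGroup B] (φ : A →+ B)
    (ψ : Additive ↥(Gamma0 (N * q)) →+ A), cβ B (φ.comp ψ) = φ.comp (cβ A ψ))
  (hparβ : ∀ ψ : parHomAdd (N * q) ℤ, cβ ℤ ψ.1 ∈ parHomAdd N ℤ)
  (hcommβ : ∀ (ℓ : ℕ) [Fact ℓ.Prime] (hℓM : ¬ ℓ ∣ N * q) (hℓN : ¬ ℓ ∣ N)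
    (ψ : parHomAdd (N * q) ℤ),
    cβ ℤ (heckeAdd (N * q) ℓ hℓM ψ.1) = heckeAdd N ℓ hℓN (cβ ℤ ψ.1))
  (hπβ : ∀ (k : ℕ) (y : Jtors (N * q) (p ^ k)),
    kappa N (p ^ k) (mapTors (betaPush N q) (p ^ k) y) =
      cβ (ZMod (p ^ k)) (kappa (N * q) (p ^ k) y))

/-- The pair of corestrictions, indexed by `Bool` (`true ↦ α`, `false ↦ β`). -/
def cPair (b : Bool) (A : Type) [AddCommGroup A] :
    (Additive ↥(Gamma0 (N * q)) →+ A) →+ (Additive ↥(Gamma0 N) →+ A) :=
  if b then coresAdd hqN else cβ A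

/-- The pair of push-forwards. -/
def piPair (b : Bool) : JZero (N * q) →+ JZero N :=
  if b then alphaPush N q else betaPush N q

include hqN hnatβ hparβ hcommβ hπβ in
/-- **P4-NEW.** The eigencharacter of a newform of level `N q` occurs in the image of
`𝒪 ⊗ newT → 𝒪 ⊗ T_p J₀(N q)`. -/
theorem exists_new_vector_newT {g : CuspForm (Gamma0 (N * q)) 2} (hg : g.IsNewform)
    (chig : CuspForm.heckeAlgebra (N * q) 2 (↑S : Set ℕ) →+* ℂ)
    (hchig : ∀ (ℓ : ℕ) (hℓ : ℓ.Prime) (hℓM : ¬ ℓ ∣ N * q) (hℓS : ℓ ∉ (↑S : Set ℕ)),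
      chig (CuspForm.heckeAlgebra.T hℓ hℓM hℓS) = qCoeff g ℓ)
    (iota : chig.range →+* 𝒪) :
    ∃ v ∈ LinearMap.range
        ((show Submodule ℤ_[p] (tateData (N * q) p hES).T from newT p N q).subtype.baseChange 𝒪),
      v ≠ 0 ∧ ∀ i, (S30Assembly.tauT (tateData (N * q) p hES) S i).baseChange 𝒪 v =
        S30Assembly.eigenvalue S 𝒪 (iota.comp chig.rangeRestrict) i • v := by
  have hq1 : q ≠ 1 := hq.out.one_lt.ne'
  have hne : N ≠ N * q := fun h => hq1 (by
    have h2 : N * 1 = N * q := by rw [mul_one]; exact h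
    exact (Nat.eq_of_mul_eq_mul_left (Nat.pos_of_ne_zero (NeZero.ne N)) h2).symm)
  refine exists_new_vector_tateData (N := N) p S hES (cPair hqN cβ) ?_ ?_ ?_ (piPair (N := N) (q := q))
    ?_ hg (Dvd.intro q rfl) hne chig hchig iota _ ?_
  · -- naturality
    intro b A B _ _ φ ψ
    cases b
    · exact hnatβ A B φ ψ
    · exact coresAdd_comp hqN φ ψ
  · -- parabolic
    intro b ψ
    cases b
    · exact hparβ ψ
    · exact coresAdd_mem_parHomAdd hqN ψ.2
  · -- Hecke
    intro b ℓ _ hℓM hℓN ψ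
    cases b
    · exact hcommβ ℓ hℓM hℓN ψ
    · exact coresAdd_heckeAdd hqN hℓN hℓM ψ.1
  · -- Kummer compatibility
    intro b k y
    cases b
    · exact hπβ k y
    · exact Fermat.Agent.P4.TatePushAlpha.kappa_mapTors_alphaPush hqN (Fermat.Agent.P4.KummerExplicit.pow_pos' p k) y
  · -- `newT` is the common kernel
    intro z hz
    exact mem_newT_iff.mpr ⟨hz true, hz false⟩

end Fermat.Agent.P4S35.NewInstance
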