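/-
P4-S35, node P4-NEW, final form (helper4): **`S35Top.NewEigenvector` from the function-level
`β`-statement (N4b).**

`HBetaAt hqN` is the body of helper10's hypothesis `H` of `KummerPushBetaPic.kappa_betaPush` for
`cocβ g x := AtkinLehner.alConj hqN (Cores.coresCoc hqN g x)` (= the RHS of helper2's
`CoresEta.coresEtaAdd_apply`); it is what helper24's `KummerPushBeta.kummerChar_norm_betaPush` gives
at `γ := AtkinLehnerGamma.alGammaSL hqN`.

* `kappa_mapTors_betaPush` : `κ^N_n (β_* y) = coresEtaAdd (κ^{Nq}_n y)`;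
* `exists_new_vector`      : `NewInstance.exists_new_vector_newT` with `cβ := coresEtaAdd`;
* `newEigenvector_of_hBeta`: `S35Top.NewEigenvector` from `HBetaAt`;
* `hBetaAt`                : `HBetaAt` from helper24's `KummerPushBetaCores.hBeta`;
* **`newEigenvector : S35Top.NewEigenvector`** — P4-NEW, unconditional.
-/
import Mathlib
import Fermat.Agent.P4S35.NewInstance
import Fermat.Agent.P4.CoresEta
import Fermat.Agent.P4.KummerPushBetaPic
import Fermat.Agent.P4.S35Top
import Fermat.Agent.P4.KummerPushBetaCores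

set_option autoImplicit false
set_option linter.unusedSectionVars false
set_option linter.style.haveILetI false

open CongruenceSubgroup ModularCurve ModularFormClass AlgebraicCurve
open UpperHalfPlane ModularForm Matrix.SpecialLinearGroup
open scoped TensorProduct MatrixGroups

noncomputable section

namespace Fermat.Agent.P4S35.NewEigenvector

open Fermat.Agent.M2 Fermat.Agent.N4F.Tors.Kummer Fermat.Agent.N4F.Tors
open Fermat.Agent.N4F.Tors.Descent Fermat.Agent.N4F.Tors.BaseChange
open Fermat.Agent.N4F.Tors.KummerFinal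
open Fermat.Agent.N4F.A.LevelMaps Fermat.Agent.N4F.A.HeckeInputsFinal
open Fermat.Agent.S24 Fermat.Agent.S24.FieldIso
open Fermat.Agent.N4F.Tors.HeckeHom Fermat.Agent.N4F.Tors.Outputs
  Fermat.Agent.N4F.Adic Fermat.Agent.N4F.Adic.TateModule Fermat.Agent.N4F.Adic.TateJ
  Fermat.Agent.N4F.Res Fermat.Agent.P4.KummerExplicit Fermat.Agent.P4.TatePush
  Fermat.Agent.P4.Cores Fermat.Agent.P4.CoresEta Fermat.Agent.P4.AtkinLehner
  Fermat.Agent.P4.Push Fermat.Agent.P4.PushTate Fermat.Agent.P4.KummerPushBetaPic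

local notation "Qb" => AlgebraicClosure ℚ

/-- The function-level `β`-statement (N4b) for helper2's normalisation of the Atkin–Lehner
conjugation and transversal. -/
def HBetaAt {N q : ℕ} [NeZero N] [Fact q.Prime] (hqN : ¬ q ∣ N) : Prop :=
  ∀ (n : ℕ) [NeZero n] (F : modularFunctionFieldBar (N * q))
    (hu : NDiv (Gamma0 (N * q)) n ((fieldEquiv (N * q)).symm (barToC (N * q) ι F)))
    (hu' : NDiv (Gamma0 N) n ((fieldEquiv N).symm (barToC N ι
      (letI := algebraAlong (heckeBetaBar Qb N q);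
        Algebra.norm (modularFunctionFieldBar N) F))))
    (g : ↥(Gamma0 N)),
    kummerChar hu' (Additive.ofMul g) =
      ∑ x : OnePoint (ZMod q), kummerChar hu (Additive.ofMul (alConj hqN (coresCoc hqN g x)))

section Level

variable {N q : ℕ} [NeZero N] [hq : Fact q.Prime] (hqN : ¬ q ∣ N)

/-- **(N4b) for the explicit Kummer maps and helper2's `coresEtaAdd`.** -/
theorem kappa_mapTors_betaPush (H : HBetaAt hqN) {n : ℕ} (hn : 0 < n) (y : Jtors (N * q) n) :
    kappa N n (mapTors (betaPush N q) n y) = coresEtaAdd hqN (kappa (N * q) n y) := by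
  refine AddMonoidHom.ext fun g => ?_
  obtain ⟨g, rfl⟩ := Additive.ofMul.surjective g
  rw [coresEtaAdd_apply]
  exact kappa_betaPush (fun g x => alConj hqN (coresCoc hqN g x)) H n hn y g

variable (p : ℕ) [hp : Fact p.Prime] (S : Finset ℕ) (hES : ESOnTorsionAll (N * q))
  {𝒪 : Type} [CommRing 𝒪] [IsDomain 𝒪] [CharZero 𝒪] [Algebra ℤ_[p] 𝒪]

/-- **P4-NEW at level `N q`**, from the function-level `β`-statement. -/
theorem exists_new_vector (H : HBetaAt hqN) {g : CuspForm (Gamma0 (N * q)) 2} (hg : g.IsNewform)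
    (chig : CuspForm.heckeAlgebra (N * q) 2 (↑S : Set ℕ) →+* ℂ)
    (hchig : ∀ (ℓ : ℕ) (hℓ : ℓ.Prime) (hℓM : ¬ ℓ ∣ N * q) (hℓS : ℓ ∉ (↑S : Set ℕ)),
      chig (CuspForm.heckeAlgebra.T hℓ hℓM hℓS) = qCoeff g ℓ)
    (iota : chig.range →+* 𝒪) :
    ∃ v ∈ LinearMap.range
        ((show Submodule ℤ_[p] (tateData (N * q) p hES).T from newT p N q).subtype.baseChange 𝒪),
      v ≠ 0 ∧ ∀ i, (S30Assembly.tauT (tateData (N * q) p hES) S i).baseChange 𝒪 v =
        S30Assembly.eigenvalue S 𝒪 (iota.comp chig.rangeRestrict) i • v :=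
  NewInstance.exists_new_vector_newT hqN p S hES (fun _ _ => coresEtaAdd hqN)
    (fun _ _ _ _ φ ψ => coresEtaAdd_comp hqN φ ψ)
    (fun ψ => coresEtaAdd_mem_parHomAdd hqN ψ.2)
    (fun _ _ hℓM hℓN ψ => coresEtaAdd_heckeAdd hqN hℓN hℓM ψ.1)
    (fun k y => kappa_mapTors_betaPush hqN H (Fermat.Agent.P4.KummerExplicit.pow_pos' p k) y)
    hg chig hchig iota

end Level

/-- **`S35Top.NewEigenvector` from the function-level `β`-statement.** -/
theorem newEigenvector_of_hBeta
    (H : ∀ (N q : ℕ) [NeZero N] [Fact q.Prime] (hqN : ¬ q ∣ N), HBetaAt hqN) :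
    Fermat.Agent.P4.S35Top.NewEigenvector := by
  intro N q _ _ hq hqN g hg lam _ hqlam S O' _ _ _ _ _ _ hlamO' chig hchig iota hlamS hMS
  haveI : Fact q.Prime := ⟨hq⟩
  letI : Algebra ℤ_[lam] O' := Fermat.Agent.P4.S35Assembly.padicAlgebra lam O' hlamO'
  exact exists_new_vector hqN lam S (Fermat.Agent.P4.S35Top.esAll (N * q)) (H N q hqN) hg chig
    hchig iota

/-- The function-level `β`-statement holds (helper24's `KummerPushBetaCores.hBeta`). -/
theorem hBetaAt {N q : ℕ} [NeZero N] [Fact q.Prime] (hqN : ¬ q ∣ N) : HBetaAt hqN :=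
  fun _ _ F hu hu' g => Fermat.Agent.P4.KummerPushBetaCores.hBeta ι hqN F hu hu' g

/-- **P4-NEW, unconditional**: the lattice input of S35. -/
theorem newEigenvector : Fermat.Agent.P4.S35Top.NewEigenvector :=
  newEigenvector_of_hBeta fun _ _ _ _ hqN => hBetaAt hqN

end Fermat.Agent.P4S35.NewEigenvector
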