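/-
P4-S35, node (N3), generic half (helper4): **occurrence of a character on the "new" sublattice.**

`Adic/Occurrence.exists_eigenvector_tensor` produces a common eigenvector of the `τ i ⊗ 1` in
`𝒪 ⊗[ℤ_[p]] T` from a faithfulness hypothesis on the lattice `Λ`.  For S35 one needs the eigenvector
inside the image of the *new* part: for an additive map `c : Λ →+ X` (later: the two corestrictions
to the lower level) with `t i`-stable kernel and a faithfulness hypothesis on `ker c` only, the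
eigenvector can be chosen in the `𝒪`-span of the `1 ⊗ f x`, `c x = 0`; in particular inside
`range (K'.subtype.baseChange 𝒪)` for every submodule `K' ≤ T` containing `f (ker c)`.

* `exists_eigenvector_tensor_span` : `exists_eigenvector_tensor` with the span clause exposed;
* `polyAct_restrict`               : `polyAct` of restricted operators is the restriction;
* `exists_new_eigenvector`         : the statement on `ker c`;
* `exists_new_eigenvector_range`   : the same, inside `range (K'.subtype.baseChange 𝒪)`.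
-/
import Mathlib
import Fermat.Agent.N4F.Adic.Occurrence

set_option autoImplicit false
set_option linter.unusedSectionVars false
set_option linter.style.haveILetI false

open scoped TensorProduct

namespace Fermat.Agent.P4S35.NewVector

open Fermat.Agent.N4F.Tors.Occurrence Fermat.Agent.N4F.Adic.Occurrence

/-- `Occurrence.exists_eigenvector_tensor`, exposing that the eigenvector lies in the `𝒪`-span of
the `1 ⊗ f x`. -/
theorem exists_eigenvector_tensor_span (p : ℕ) [Fact p.Prime]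
    {Λ : Type*} [AddCommGroup Λ] [Module.Free ℤ Λ] [Module.Finite ℤ Λ]
    {T : Type*} [AddCommGroup T] [Module ℤ_[p] T] [Module.Free ℤ_[p] T]
    [Module.Finite ℤ_[p] T]
    {I : Type*} (t : I → Module.End ℤ Λ) (ht : ∀ i j, Commute (t i) (t j))
    (τ : I → Module.End ℤ_[p] T) (f : Λ →+ T) (hf : ∀ i x, f (t i x) = τ i (f x))
    (hfp : ∀ x, (∃ w, f x = (p : ℤ_[p]) • w) → ∃ y, x = (p : ℤ) • y)
    {𝒪 : Type*} [CommRing 𝒪] [IsDomain 𝒪] [CharZero 𝒪] [Algebra ℤ_[p] 𝒪] (a : I → 𝒪)
    (H : ∀ P : MvPolynomial I ℤ,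
      polyAct (R := ℤ) t ht P = 0 → MvPolynomial.aeval a P = 0) :
    ∃ v : 𝒪 ⊗[ℤ_[p]] T, v ≠ 0 ∧ (∀ i, (τ i).baseChange 𝒪 v = a i • v) ∧
      v ∈ Submodule.span 𝒪 (Set.range fun x : Λ => (1 : 𝒪) ⊗ₜ[ℤ_[p]] f x) := by
  classical
  haveI : FaithfulSMul ℤ_[p] 𝒪 :=
    (faithfulSMul_iff_algebraMap_injective _ _).mpr (algebraMap_padicInt_injective p)
  haveI : Module.Flat ℤ_[p] 𝒪 := inferInstance
  obtain ⟨e⟩ : Nonempty (Module.Basis (Module.Free.ChooseBasisIndex ℤ Λ) ℤ Λ) :=
    ⟨Module.Free.chooseBasis ℤ Λ⟩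
  obtain ⟨M, hMdef⟩ : ∃ M : I → Matrix (Module.Free.ChooseBasisIndex ℤ Λ)
      (Module.Free.ChooseBasisIndex ℤ Λ) ℤ, ∀ i, M i = LinearMap.toMatrixAlgEquiv e (t i) :=
    ⟨fun i => LinearMap.toMatrixAlgEquiv e (t i), fun _ => rfl⟩
  have hM : ∀ i j, Commute (M i) (M j) := fun i j => by
    rw [hMdef, hMdef]
    exact (ht i j).map (LinearMap.toMatrixAlgEquiv e)
  have hpoly : ∀ P : MvPolynomial I ℤ,
      polyAct (R := ℤ) M hM P = LinearMap.toMatrixAlgEquiv e (polyAct (R := ℤ) t ht P) := by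
    intro P
    have h1 := polyAct_int_unique M hM
      ((LinearMap.toMatrixAlgEquiv e : Module.End ℤ Λ →+* _).comp
        (polyAct (R := ℤ) t ht).toRingHom) (fun i => by simp [hMdef])
    exact (RingHom.congr_fun h1 P).symm
  have H' : ∀ P : MvPolynomial I ℤ, polyAct (R := ℤ) M hM P = 0 →
      MvPolynomial.aeval a P = 0 := by
    intro P hP
    rw [hpoly P] at hP
    exact H P ((LinearMap.toMatrixAlgEquiv e).injective (by rw [hP, map_zero]))
  obtain ⟨v', hv'0, hev'⟩ := exists_eigenvector_matrix_domain M hM a H'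
  obtain ⟨u, hudef⟩ : ∃ u : Module.Free.ChooseBasisIndex ℤ Λ → 𝒪 ⊗[ℤ_[p]] T,
      ∀ j, u j = (1 : 𝒪) ⊗ₜ[ℤ_[p]] f (e j) := ⟨fun j => (1 : 𝒪) ⊗ₜ[ℤ_[p]] f (e j), fun _ => rfl⟩
  have hind : LinearIndependent 𝒪 u := by
    have h1 := Module.Flat.linearIndependent_one_tmul (S := 𝒪)
      (linearIndependent_map_basis p e f hfp)
    have h2 : u = fun j => (1 : 𝒪) ⊗ₜ[ℤ_[p]] f (e j) := funext hudef
    rw [h2]
    exact h1
  refine ⟨∑ j, v' j • u j, fun h0 => hv'0 ?_, fun i => ?_, ?_⟩
  · funext j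
    exact Fintype.linearIndependent_iff.mp hind v' h0 j
  · have hu : ∀ j, (τ i).baseChange 𝒪 (u j) = ∑ k, (((M i) k j : ℤ) : 𝒪) • u k := by
      intro j
      have h1 : t i (e j) = ∑ k, ((M i) k j) • e k := by
        have h2 := e.sum_repr (t i (e j))
        rw [← h2]
        refine Finset.sum_congr rfl fun k _ => ?_
        rw [hMdef, LinearMap.toMatrixAlgEquiv_apply]
      rw [hudef, LinearMap.baseChange_tmul, ← hf, h1, map_sum, TensorProduct.tmul_sum]
      refine Finset.sum_congr rfl fun k _ => ?_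
      rw [map_zsmul, TensorProduct.tmul_smul, hudef]
      exact (Int.cast_smul_eq_zsmul 𝒪 _ _).symm
    calc (τ i).baseChange 𝒪 (∑ j, v' j • u j)
        = ∑ j, ∑ k, (v' j * (((M i) k j : ℤ) : 𝒪)) • u k := by
          rw [map_sum]
          refine Finset.sum_congr rfl fun j _ => ?_
          rw [map_smul, hu j, Finset.smul_sum]
          exact Finset.sum_congr rfl fun k _ => smul_smul _ _ _
      _ = ∑ k, ∑ j, (v' j * (((M i) k j : ℤ) : 𝒪)) • u k := Finset.sum_comm
      _ = ∑ k, (a i * v' k) • u k := by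
          refine Finset.sum_congr rfl fun k _ => ?_
          rw [← Finset.sum_smul, ← hev' i k]
          congr 1
          exact Finset.sum_congr rfl fun j _ => mul_comm _ _
      _ = a i • ∑ k, v' k • u k := by
          rw [Finset.smul_sum]
          exact Finset.sum_congr rfl fun k _ => (smul_smul _ _ _).symm
  · refine Submodule.sum_mem _ fun j _ => Submodule.smul_mem _ _ (Submodule.subset_span ?_)
    exact ⟨e j, (hudef j).symm⟩

/-! ### Restriction of a commuting family to a stable submodule -/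

section Restrict

variable {Λ : Type*} [AddCommGroup Λ] {I : Type*} (t : I → Module.End ℤ Λ)
  (ht : ∀ i j, Commute (t i) (t j)) (K : Submodule ℤ Λ) (hK : ∀ i, ∀ x ∈ K, t i x ∈ K)

/-- The restricted operators. -/
noncomputable def tRes (i : I) : Module.End ℤ K := (t i).restrict (hK i)

theorem tRes_apply (i : I) (x : K) : ((tRes t K hK i x : K) : Λ) = t i x := rfl

include ht in
theorem tRes_comm (i j : I) : Commute (tRes t K hK i) (tRes t K hK j) := by
  apply LinearMap.ext
  intro x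
  apply Subtype.ext
  change t i (t j x) = t j (t i x)
  exact LinearMap.congr_fun (ht i j) x

/-- `polyAct` of the restricted family is the restriction of `polyAct`. -/
theorem polyAct_restrict (P : MvPolynomial I ℤ) (x : K) :
    ((polyAct (R := ℤ) (tRes t K hK) (tRes_comm t ht K hK) P x : K) : Λ)
      = polyAct (R := ℤ) t ht P x := by
  induction P using MvPolynomial.induction_on generalizing x with
  | C r =>
    have h1 : (MvPolynomial.C r : MvPolynomial I ℤ) = (r : MvPolynomial I ℤ) := by simp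
    rw [h1, map_intCast, map_intCast]
    simp
  | add P Q hP hQ =>
    rw [map_add, map_add, LinearMap.add_apply, LinearMap.add_apply, Submodule.coe_add, hP, hQ]
  | mul_X P i hP =>
    rw [map_mul, map_mul, polyAct_X, polyAct_X, Module.End.mul_apply, Module.End.mul_apply, hP,
      tRes_apply]

end Restrict

/-! ### The eigenvector on the kernel of an additive map -/

section New

variable (p : ℕ) [Fact p.Prime]
  {Λ : Type*} [AddCommGroup Λ] [Module.Free ℤ Λ] [Module.Finite ℤ Λ]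
  {T : Type*} [AddCommGroup T] [Module ℤ_[p] T] [Module.Free ℤ_[p] T] [Module.Finite ℤ_[p] T]
  {I : Type*} (t : I → Module.End ℤ Λ) (ht : ∀ i j, Commute (t i) (t j))
  (τ : I → Module.End ℤ_[p] T) (f : Λ →+ T) (hf : ∀ i x, f (t i x) = τ i (f x))
  (hfp : ∀ x, (∃ w, f x = (p : ℤ_[p]) • w) → ∃ y, x = (p : ℤ) • y)
  {𝒪 : Type*} [CommRing 𝒪] [IsDomain 𝒪] [CharZero 𝒪] [Algebra ℤ_[p] 𝒪] (a : I → 𝒪)
  {X : Type*} [AddCommGroup X] (c : Λ →+ X) (hX : ∀ z : X, (p : ℤ) • z = 0 → z = 0)
  (hc : ∀ i x, c x = 0 → c (t i x) = 0)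

include hf hfp hX hc in
/-- **(N3), generic form.** If every integral polynomial in the `t i` which kills `ker c` is killed
by the character `a`, then the `τ i ⊗ 1` have a nonzero common eigenvector with eigenvalues `a i` in
the `𝒪`-span of the `1 ⊗ f x`, `x ∈ ker c`. -/
theorem exists_new_eigenvector
    (H : ∀ P : MvPolynomial I ℤ,
      (∀ x, c x = 0 → polyAct (R := ℤ) t ht P x = 0) → MvPolynomial.aeval a P = 0) :
    ∃ v : 𝒪 ⊗[ℤ_[p]] T, v ≠ 0 ∧ (∀ i, (τ i).baseChange 𝒪 v = a i • v) ∧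
      v ∈ Submodule.span 𝒪 {y | ∃ x : Λ, c x = 0 ∧ y = (1 : 𝒪) ⊗ₜ[ℤ_[p]] f x} := by
  classical
  -- the kernel as a `ℤ`-submodule
  set K : Submodule ℤ Λ := AddSubgroup.toIntSubmodule c.ker with hKdef
  have hmemK : ∀ x, x ∈ K ↔ c x = 0 := fun x => by
    rw [hKdef]
    exact AddMonoidHom.mem_ker
  have hK : ∀ i, ∀ x ∈ K, t i x ∈ K := fun i x hx => (hmemK _).mpr (hc i x ((hmemK x).mp hx))
  have hf' : ∀ i (x : K), (f.comp K.subtype.toAddMonoidHom) (tRes t K hK i x)
      = τ i ((f.comp K.subtype.toAddMonoidHom) x) := fun i x => hf i x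
  have hfp' : ∀ x : K, (∃ w, (f.comp K.subtype.toAddMonoidHom) x = (p : ℤ_[p]) • w) →
      ∃ y : K, x = (p : ℤ) • y := by
    rintro x ⟨w, hw⟩
    obtain ⟨y, hy⟩ := hfp x ⟨w, hw⟩
    have hcy : c y = 0 := by
      apply hX
      rw [← map_zsmul, ← hy]
      exact (hmemK _).mp x.2
    exact ⟨⟨y, (hmemK y).mpr hcy⟩, Subtype.ext hy⟩
  have H' : ∀ P : MvPolynomial I ℤ,
      polyAct (R := ℤ) (tRes t K hK) (tRes_comm t ht K hK) P = 0 →
        MvPolynomial.aeval a P = 0 := by
    intro P hP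
    refine H P fun x hx => ?_
    have h1 := polyAct_restrict t ht K hK P ⟨x, (hmemK x).mpr hx⟩
    rw [hP] at h1
    exact h1.symm
  obtain ⟨v, hv0, hev, hspan⟩ := exists_eigenvector_tensor_span p (tRes t K hK)
    (tRes_comm t ht K hK) τ (f.comp K.subtype.toAddMonoidHom) hf' hfp' a H'
  refine ⟨v, hv0, hev, ?_⟩
  refine Submodule.span_mono ?_ hspan
  rintro _ ⟨x, rfl⟩
  exact ⟨x, (hmemK _).mp x.2, rfl⟩

include hf hfp hX hc in
/-- **(N3), generic form, inside a submodule of `T`.** If moreover `f (ker c) ⊆ K'`, the eigenvector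
lies in the image of `𝒪 ⊗ K' → 𝒪 ⊗ T`. -/
theorem exists_new_eigenvector_range
    (H : ∀ P : MvPolynomial I ℤ,
      (∀ x, c x = 0 → polyAct (R := ℤ) t ht P x = 0) → MvPolynomial.aeval a P = 0)
    (K' : Submodule ℤ_[p] T) (hK' : ∀ x, c x = 0 → f x ∈ K') :
    ∃ v ∈ LinearMap.range (K'.subtype.baseChange 𝒪), v ≠ 0 ∧
      ∀ i, (τ i).baseChange 𝒪 v = a i • v := by
  obtain ⟨v, hv0, hev, hspan⟩ := exists_new_eigenvector p t ht τ f hf hfp a c hX hc H
  refine ⟨v, ?_, hv0, hev⟩
  refine (Submodule.span_le.mpr ?_) hspan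
  rintro _ ⟨x, hx, rfl⟩
  exact ⟨(1 : 𝒪) ⊗ₜ[ℤ_[p]] ⟨f x, hK' x hx⟩, by rw [LinearMap.baseChange_tmul]; rfl⟩

end New

end Fermat.Agent.P4S35.NewVector
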